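/-
P-ES / ES-D-TG (helper7), part 1: the abstract fibre inequality.

Two function fields `F₁ / L`, `F₂ / k`, a map `r` on places, a valuation ring `A ⊆ L` with a
surjection `π : A → k`, functions `x ∈ F₁`, `x̄ ∈ F₂` such that `r_* div (x - c) = div (x̄ - π c)`
for all `c ∈ A`, and such that `x̄` has at least as many poles as `x` (with multiplicity).  Then
there is no cancellation between zeros and poles in the fibres of `r`, and if the branch values
of `x` are `c₁, c₂ ∈ A` (and `∞`) with `π c₁ ≠ π c₂`, the fibre inequality of the pinch lemma holds.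
-/
import Fermat.Agent.H27.ESD.Interfaces1b
import Fermat.Agent.H23.PlaceBasic

set_option autoImplicit false

noncomputable section

open AlgebraicCurve

namespace Fermat.Agent.H7.ESD

open Fermat.Agent.H27.ESD

/-! ### `ord` lemmas, any characteristic -/

section ordLemmas

variable {K F : Type*} [Field K] [Field F] [Algebra K F] (v : Place K F)

/-- if `ord_v x < 0` then `ord_v (x - c) = ord_v x` -/
theorem tg_ord_sub_const_of_neg (x : F) (c : K) (h : v.ord x < 0) :
    v.ord (x - algebraMap K F c) = v.ord x := by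
  by_cases hc : algebraMap K F c = 0
  · rw [hc, sub_zero]
  · have hx0 : x ≠ 0 := by
      rintro rfl
      simp at h
    have h1 : v.ord x < v.ord (-(algebraMap K F c)) := by
      rw [Fermat.Agent.H23.ord_neg, Fermat.Agent.H23.ord_algebraMap]
      exact h
    have := Fermat.Agent.H23.ord_add_eq_of_lt v hx0 (neg_ne_zero.mpr hc) h1
    rwa [← sub_eq_add_neg] at this

/-- if `0 ≤ ord_v x` then `0 ≤ ord_v (x - c)` -/
theorem tg_ord_sub_const_nonneg (x : F) (c : K) (h : 0 ≤ v.ord x) :
    0 ≤ v.ord (x - algebraMap K F c) := by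
  by_cases h0 : x - algebraMap K F c = 0
  · rw [h0]
    simp
  · rw [sub_eq_add_neg] at h0 ⊢
    refine Fermat.Agent.H23.ord_add_ge v h0 0 (Or.inr h) (Or.inr ?_)
    rw [Fermat.Agent.H23.ord_neg, Fermat.Agent.H23.ord_algebraMap]

theorem tg_ord_sub_const_neg_iff (x : F) (c : K) :
    v.ord (x - algebraMap K F c) < 0 ↔ v.ord x < 0 := by
  constructor
  · intro h
    by_contra h'
    have := tg_ord_sub_const_nonneg v x c (not_lt.mp h')
    omega
  · intro h
    rw [tg_ord_sub_const_of_neg v x c h]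
    exact h

/-- the pole part of `x - c` does not depend on `c` -/
theorem tg_max_neg_ord_sub_const (x : F) (c : K) :
    max (-(v.ord (x - algebraMap K F c))) 0 = max (v.ord x⁻¹) 0 := by
  rw [v.ord_inv]
  rcases lt_or_ge (v.ord x) 0 with h | h
  · rw [tg_ord_sub_const_of_neg v x c h]
  · have := tg_ord_sub_const_nonneg v x c h
    rw [max_eq_right (by omega), max_eq_right (by omega)]

/-- uniqueness of the value of a function at a place -/
theorem tg_value_unique (x : F) {a b : K} (ha : 0 < v.ord (x - algebraMap K F a))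
    (hb : 0 < v.ord (x - algebraMap K F b)) : a = b := by
  by_contra hab
  have hne : algebraMap K F (b - a) ≠ 0 := by
    rw [Ne, map_eq_zero]
    exact sub_ne_zero.mpr (Ne.symm hab)
  have h0 : v.ord (algebraMap K F (b - a)) = 0 := Fermat.Agent.H23.ord_algebraMap v _
  have h1 : (x - algebraMap K F a) + (-(x - algebraMap K F b)) = algebraMap K F (b - a) := by
    rw [map_sub]
    ring
  have h2 : 1 ≤ v.ord ((x - algebraMap K F a) + (-(x - algebraMap K F b))) := by
    refine Fermat.Agent.H23.ord_add_ge v (by rw [h1]; exact hne) 1 (Or.inr ha) (Or.inr ?_)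
    rw [Fermat.Agent.H23.ord_neg]
    exact hb
  rw [h1, h0] at h2
  omega

theorem tg_ramIdx_of_neg (y : F) (h : v.ord y < 0) : ramIdx y v = (-(v.ord y)).toNat := by
  rw [ramIdx, if_pos h]

theorem tg_ramIdx_of_sub_pos (y : F) {a : K} (ha : 0 < v.ord (y - algebraMap K F a)) :
    ramIdx y v = (v.ord (y - algebraMap K F a)).toNat := by
  have h0 : ¬ v.ord y < 0 := by
    intro h
    have := (tg_ord_sub_const_neg_iff v y a).mpr h
    omega
  rw [ramIdx, if_neg h0]
  have hle : ∀ c : K, (v.ord (y - algebraMap K F c)).toNat ≤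
      (v.ord (y - algebraMap K F a)).toNat := by
    intro c
    by_cases hc : c = a
    · rw [hc]
    · have : ¬ 0 < v.ord (y - algebraMap K F c) := fun h => hc (tg_value_unique v y h ha)
      rw [Int.toNat_of_nonpos (not_lt.mp this)]
      exact Nat.zero_le _
  refine le_antisymm (ciSup_le hle) ?_
  exact le_ciSup (f := fun c : K => (v.ord (y - algebraMap K F c)).toNat)
    ⟨_, by rintro _ ⟨c, rfl⟩; exact hle c⟩ a

/-- the ramification index is positive at every place of degree one (for a nonconstant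
function) -/
theorem tg_one_le_ramIdx (hdeg : v.deg = 1) (y : F) (hy : Transcendental K y) :
    1 ≤ ramIdx y v := by
  rcases lt_or_ge (v.ord y) 0 with h | h
  · rw [tg_ramIdx_of_neg v y h]
    omega
  · obtain ⟨c, hc | hc⟩ := Fermat.Agent.H23.exists_const_ord_sub_pos v hdeg (Or.inr h)
    · exact absurd (hc ▸ isAlgebraic_algebraMap c) hy
    · rw [tg_ramIdx_of_sub_pos v y hc]
      omega

end ordLemmas

/-! ### finitely supported functions -/

section finsupp

variable {α β : Type*}

/-- positive part -/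
def tgPos (D : α →₀ ℤ) : α →₀ ℤ := D.mapRange (fun z => max z 0) (by simp)

/-- negative part -/
def tgNeg (D : α →₀ ℤ) : α →₀ ℤ := D.mapRange (fun z => max (-z) 0) (by simp)

theorem tgPos_apply (D : α →₀ ℤ) (a : α) : tgPos D a = max (D a) 0 := by
  simp [tgPos]

theorem tgNeg_apply (D : α →₀ ℤ) (a : α) : tgNeg D a = max (-(D a)) 0 := by
  simp [tgNeg]

theorem tgPos_nonneg (D : α →₀ ℤ) (a : α) : 0 ≤ tgPos D a := by
  rw [tgPos_apply]
  exact le_max_right _ _

theorem tgNeg_nonneg (D : α →₀ ℤ) (a : α) : 0 ≤ tgNeg D a := by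
  rw [tgNeg_apply]
  exact le_max_right _ _

theorem tgPos_sub_tgNeg (D : α →₀ ℤ) : tgPos D - tgNeg D = D := by
  ext a
  rw [Finsupp.sub_apply, tgPos_apply, tgNeg_apply]
  omega

/-- total mass -/
def tgTot (E : α →₀ ℤ) : ℤ := E.sum fun _ z => z

theorem tgTot_mapDomain (r : α → β) (E : α →₀ ℤ) :
    tgTot (Finsupp.mapDomain r E) = tgTot E :=
  Finsupp.sum_mapDomain_index (fun _ => rfl) (fun _ _ _ => rfl)

theorem tgTot_sub (E E' : α →₀ ℤ) : tgTot (E - E') = tgTot E - tgTot E' :=
  Finsupp.sum_sub_index (fun _ _ _ => rfl)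

theorem tg_eq_zero_of_nonneg_of_tot_nonpos (G : α →₀ ℤ) (h : ∀ b, 0 ≤ G b)
    (ht : tgTot G ≤ 0) : G = 0 := by
  ext b
  by_contra hb
  have hb' : b ∈ G.support := Finsupp.mem_support_iff.mpr hb
  have h1 : G b ≤ tgTot G :=
    Finset.single_le_sum (f := fun a => G a) (fun a _ => h a) hb'
  have h2 := h b
  rw [Finsupp.zero_apply] at hb
  omega

theorem tg_eq_of_le_of_tot_le (E E' : α →₀ ℤ) (h : ∀ b, E b ≤ E' b)
    (ht : tgTot E' ≤ tgTot E) : E = E' := by
  have h0 : E' - E = 0 := by
    refine tg_eq_zero_of_nonneg_of_tot_nonpos _ (fun b => ?_) ?_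
    · rw [Finsupp.sub_apply]
      have := h b
      omega
    · rw [tgTot_sub]
      omega
  exact (sub_eq_zero.mp h0).symm

theorem tg_mapDomain_apply (r : α → β) (E : α →₀ ℤ) (b : β) [DecidablePred fun a => r a = b] :
    Finsupp.mapDomain r E b = ∑ a ∈ E.support, if r a = b then E a else 0 := by
  classical
  rw [Finsupp.mapDomain, Finsupp.sum_apply, Finsupp.sum]
  refine Finset.sum_congr rfl fun a _ => ?_
  rw [Finsupp.single_apply]

theorem tg_mapDomain_nonneg (r : α → β) (E : α →₀ ℤ) (hE : ∀ a, 0 ≤ E a) (b : β) :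
    0 ≤ Finsupp.mapDomain r E b := by
  classical
  rw [tg_mapDomain_apply]
  refine Finset.sum_nonneg fun a _ => ?_
  split_ifs
  · exact hE a
  · exact le_rfl

/-- partial sums over a fibre are bounded by the push-forward -/
theorem tg_sum_le_mapDomain (r : α → β) (E : α →₀ ℤ) (hE : ∀ a, 0 ≤ E a) (b : β)
    (s : Finset α) (hs : ∀ a ∈ s, r a = b) :
    ∑ a ∈ s, E a ≤ Finsupp.mapDomain r E b := by
  classical
  rw [tg_mapDomain_apply]
  have h1 : ∑ a ∈ s, E a = ∑ a ∈ s ∩ E.support, E a := by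
    symm
    refine Finset.sum_subset Finset.inter_subset_left fun a ha hna => ?_
    by_contra h0
    exact hna (Finset.mem_inter.mpr ⟨ha, Finsupp.mem_support_iff.mpr h0⟩)
  have h2 : ∑ a ∈ s ∩ E.support, E a = ∑ a ∈ s ∩ E.support, if r a = b then E a else 0 := by
    refine Finset.sum_congr rfl fun a ha => ?_
    rw [if_pos (hs a (Finset.mem_inter.mp ha).1)]
  rw [h1, h2]
  refine Finset.sum_le_sum_of_subset_of_nonneg Finset.inter_subset_right fun a _ _ => ?_
  split_ifs
  · exact hE a
  · exact le_rfl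

/-- if the push-forward of a nonnegative function vanishes at `b`, the function vanishes on the
fibre of `b` -/
theorem tg_eq_zero_of_mapDomain_eq_zero (r : α → β) (E : α →₀ ℤ) (hE : ∀ a, 0 ≤ E a) (b : β)
    (h0 : Finsupp.mapDomain r E b = 0) (a : α) (ha : r a = b) : E a = 0 := by
  have h1 := tg_sum_le_mapDomain r E hE b {a} (by simpa using ha)
  rw [Finset.sum_singleton, h0] at h1
  exact le_antisymm h1 (hE a)

/-- the combinatorial core of the fibre inequality -/
theorem tg_comb (s : Finset α) (e d : α → ℤ) (T : ℤ) (hd : ∀ v ∈ s, 0 ≤ d v)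
    (he : ∀ v ∈ s, 1 < e v → e v ≤ d v) (hsum : ∑ v ∈ s, d v ≤ T) (hT : 1 ≤ T) :
    ∑ v ∈ s, (e v - 1) ≤ T - 1 := by
  classical
  by_cases h : ∃ v₀ ∈ s, 1 < e v₀
  · obtain ⟨v₀, hv₀, h1⟩ := h
    rw [← Finset.add_sum_erase s _ hv₀]
    rw [← Finset.add_sum_erase s _ hv₀] at hsum
    have h2 : ∑ v ∈ s.erase v₀, (e v - 1) ≤ ∑ v ∈ s.erase v₀, d v := by
      refine Finset.sum_le_sum fun v hv => ?_
      have hvs : v ∈ s := Finset.mem_of_mem_erase hv
      by_cases h3 : 1 < e v
      · have := he v hvs h3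
        omega
      · have := hd v hvs
        omega
    have h3 := he v₀ hv₀ h1
    omega
  · push Not at h
    have h2 : ∑ v ∈ s, (e v - 1) ≤ ∑ v ∈ s, (0 : ℤ) := by
      refine Finset.sum_le_sum fun v hv => ?_
      have := h v hv
      omega
    rw [Finset.sum_const_zero] at h2
    omega

end finsupp

/-! ### the abstract datum -/

section datum

variable {L F₁ k F₂ : Type*} [Field L] [Field F₁] [Algebra L F₁] [Field k] [Field F₂]
  [Algebra k F₂]

/-- The hypotheses of the abstract fibre inequality. -/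
structure TgDatum (A : ValuationSubring L) (π : A →+* k) (r : Place L F₁ → Place k F₂)
    (x : F₁) (xbar : F₂) (n : ℤ) : Prop where
  deg₂ : ∀ w : Place k F₂, w.deg = 1
  surj : Function.Surjective π
  hxbar : Transcendental k xbar
  div_exists : ∀ c : A, ∃ D : Divisor L F₁, ∀ P, D P = P.ord (x - algebraMap L F₁ (c : L))
  compat : ∀ (c : A) (D : Divisor L F₁), (∀ P, D P = P.ord (x - algebraMap L F₁ (c : L))) →
    ∀ Q, Finsupp.mapDomain r D Q = Q.ord (xbar - algebraMap k F₂ (π c))
  polesL : ∑ᶠ v ∈ {v : Place L F₁ | 0 < v.ord x⁻¹}, v.ord x⁻¹ ≤ n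
  polesk_fin : {w : Place k F₂ | 0 < w.ord xbar⁻¹}.Finite
  polesk : n ≤ ∑ᶠ w ∈ {w : Place k F₂ | 0 < w.ord xbar⁻¹}, w.ord xbar⁻¹

variable {A : ValuationSubring L} {π : A →+* k} {r : Place L F₁ → Place k F₂}
  {x : F₁} {xbar : F₂} {n : ℤ}

/-- total mass of a nonnegative finitely supported function as a `finsum` over its positivity
set -/
theorem tgTot_eq_finsum {α : Type*} (E : α →₀ ℤ) (f : α → ℤ)
    (hE : ∀ a, E a = max (f a) 0) :
    tgTot E = ∑ᶠ a ∈ {a : α | 0 < f a}, f a := by
  have hset : {a : α | 0 < f a} = ↑E.support := by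
    ext a
    simp only [Set.mem_ofPred_eq, Finset.mem_coe, Finsupp.mem_support_iff, hE a]
    constructor
    · intro h
      rw [max_eq_left h.le]
      omega
    · intro h
      by_contra h'
      exact h (max_eq_right (not_lt.mp h'))
  rw [hset, finsum_mem_coe_finset, tgTot, Finsupp.sum]
  refine Finset.sum_congr rfl fun a ha => ?_
  have h1 : E a ≠ 0 := Finsupp.mem_support_iff.mp ha
  rw [hE a] at h1 ⊢
  by_cases h2 : 0 < f a
  · exact max_eq_left h2.le
  · exact absurd (max_eq_right (not_lt.mp h2)) h1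

/-- the pole divisor of `x̄` -/
def tgPoleBar (T : TgDatum A π r x xbar n) : Place k F₂ →₀ ℤ :=
  Finsupp.ofSupportFinite (fun w => max (w.ord xbar⁻¹) 0) (by
    refine T.polesk_fin.subset fun w hw => ?_
    simp only [Function.mem_support] at hw
    by_contra h'
    exact hw (max_eq_right (not_lt.mp h')))

theorem tgPoleBar_apply (T : TgDatum A π r x xbar n) (w : Place k F₂) :
    tgPoleBar T w = max (w.ord xbar⁻¹) 0 := rfl

/-- **No cancellation.**  The push-forward of the pole divisor of `x` is the pole divisor of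
`x̄`, and no zero of `x - c` (`c ∈ A`) lies in the fibre of a pole of `x̄`. -/
theorem TgDatum.noCancel (T : TgDatum A π r x xbar n) (c : A) (D : Divisor L F₁)
    (hD : ∀ P, D P = P.ord (x - algebraMap L F₁ (c : L))) :
    (∀ w, Finsupp.mapDomain r (tgNeg D) w = max (w.ord xbar⁻¹) 0) ∧
    (∀ w, Finsupp.mapDomain r (tgPos D) w - Finsupp.mapDomain r (tgNeg D) w =
      w.ord (xbar - algebraMap k F₂ (π c))) ∧
    (∀ w, 0 < Finsupp.mapDomain r (tgNeg D) w → Finsupp.mapDomain r (tgPos D) w = 0) := by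
  have hdiff : ∀ w, Finsupp.mapDomain r (tgPos D) w - Finsupp.mapDomain r (tgNeg D) w =
      w.ord (xbar - algebraMap k F₂ (π c)) := by
    intro w
    rw [← T.compat c D hD w, ← Finsupp.sub_apply, ← Finsupp.mapDomain_sub, tgPos_sub_tgNeg]
  have hPnn := fun w => tg_mapDomain_nonneg r (tgPos D) (tgPos_nonneg D) w
  have hNnn := fun w => tg_mapDomain_nonneg r (tgNeg D) (tgNeg_nonneg D) w
  have hle : ∀ w, tgPoleBar T w ≤ Finsupp.mapDomain r (tgNeg D) w := by
    intro w
    rw [tgPoleBar_apply, w.ord_inv]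
    rcases lt_or_ge (w.ord xbar) 0 with h | h
    · have h1 := hdiff w
      rw [tg_ord_sub_const_of_neg w xbar (π c) h] at h1
      have := hPnn w
      rw [max_eq_left (by omega)]
      omega
    · rw [max_eq_right (by omega)]
      exact hNnn w
  have htotN : tgTot (Finsupp.mapDomain r (tgNeg D)) ≤ n := by
    rw [tgTot_mapDomain, tgTot_eq_finsum (tgNeg D) (fun v => v.ord x⁻¹)]
    · exact T.polesL
    · intro v
      rw [tgNeg_apply, hD v]
      exact tg_max_neg_ord_sub_const v x _
  have htotP : n ≤ tgTot (tgPoleBar T) := by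
    rw [tgTot_eq_finsum (tgPoleBar T) (fun w => w.ord xbar⁻¹) (fun w => rfl)]
    exact T.polesk
  have heq : tgPoleBar T = Finsupp.mapDomain r (tgNeg D) :=
    tg_eq_of_le_of_tot_le _ _ hle (htotN.trans htotP)
  have h1 : ∀ w, Finsupp.mapDomain r (tgNeg D) w = max (w.ord xbar⁻¹) 0 := by
    intro w
    rw [← heq]
    rfl
  refine ⟨h1, hdiff, fun w hw => ?_⟩
  have h2 := h1 w
  have h3 := hdiff w
  rw [w.ord_inv] at h2
  have hneg : w.ord xbar < 0 := by
    by_contra h'
    rw [max_eq_right (by omega)] at h2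
    omega
  rw [tg_ord_sub_const_of_neg w xbar (π c) hneg] at h3
  rw [max_eq_left (by omega)] at h2
  omega

/-- `x` and `x̄` have the same number of poles (with multiplicity). -/
theorem TgDatum.poles_eq (T : TgDatum A π r x xbar n) (c : A) :
    ∑ᶠ w ∈ {w : Place k F₂ | 0 < w.ord xbar⁻¹}, w.ord xbar⁻¹ =
      ∑ᶠ v ∈ {v : Place L F₁ | 0 < v.ord x⁻¹}, v.ord x⁻¹ := by
  obtain ⟨D, hD⟩ := T.div_exists c
  obtain ⟨h1, -, -⟩ := T.noCancel c D hD
  have heq : Finsupp.mapDomain r (tgNeg D) = tgPoleBar T := by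
    ext w
    rw [h1 w]
    rfl
  rw [← tgTot_eq_finsum (tgPoleBar T) (fun w => w.ord xbar⁻¹) (fun w => rfl), ← heq,
    tgTot_mapDomain, tgTot_eq_finsum (tgNeg D) (fun v => v.ord x⁻¹)]
  intro v
  rw [tgNeg_apply, hD v]
  exact tg_max_neg_ord_sub_const v x _

/-- **The fibre inequality** of the pinch lemma. -/
theorem TgDatum.fibre (T : TgDatum A π r x xbar n) (c₁ c₂ : A) (hc : π c₁ ≠ π c₂)
    (hbr : ∀ v : Place L F₁, 1 < ramIdx x v →
      v.ord x < 0 ∨ 0 < v.ord (x - algebraMap L F₁ (c₁ : L)) ∨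
        0 < v.ord (x - algebraMap L F₁ (c₂ : L)))
    (w : Place k F₂) (s : Finset (Place L F₁)) (hs : ∀ v ∈ s, r v = w) :
    ∑ v ∈ s, ((ramIdx x v : ℤ) - 1) ≤ (ramIdx xbar w : ℤ) - 1 := by
  classical
  obtain ⟨D₁, hD₁⟩ := T.div_exists c₁
  obtain ⟨D₂, hD₂⟩ := T.div_exists c₂
  obtain ⟨hN₁, hdiff₁, hcan₁⟩ := T.noCancel c₁ D₁ hD₁
  obtain ⟨hN₂, hdiff₂, hcan₂⟩ := T.noCancel c₂ D₂ hD₂
  rcases lt_or_ge (w.ord xbar) 0 with hw | hw
  · -- `w` is a pole of `x̄`
    have hT : (ramIdx xbar w : ℤ) = -(w.ord xbar) := by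
      rw [tg_ramIdx_of_neg w xbar hw, Int.toNat_of_nonneg (by omega)]
    have hNw : Finsupp.mapDomain r (tgNeg D₁) w = -(w.ord xbar) := by
      rw [hN₁ w, w.ord_inv, max_eq_left (by omega)]
    have hNw₂ : Finsupp.mapDomain r (tgNeg D₂) w = -(w.ord xbar) := by
      rw [hN₂ w, w.ord_inv, max_eq_left (by omega)]
    have hP₁ : Finsupp.mapDomain r (tgPos D₁) w = 0 := hcan₁ w (by rw [hNw]; omega)
    have hP₂ : Finsupp.mapDomain r (tgPos D₂) w = 0 := hcan₂ w (by rw [hNw₂]; omega)
    rw [hT]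
    refine tg_comb s (fun v => (ramIdx x v : ℤ)) (fun v => tgNeg D₁ v) _
      (fun v _ => tgNeg_nonneg D₁ v) ?_ ?_ (by omega)
    · intro v hv h1
      have h1' : 1 < ramIdx x v := by exact_mod_cast h1
      have hz₁ : tgPos D₁ v = 0 :=
        tg_eq_zero_of_mapDomain_eq_zero r _ (tgPos_nonneg D₁) w hP₁ v (hs v hv)
      have hz₂ : tgPos D₂ v = 0 :=
        tg_eq_zero_of_mapDomain_eq_zero r _ (tgPos_nonneg D₂) w hP₂ v (hs v hv)
      rw [tgPos_apply, hD₁ v] at hz₁
      rw [tgPos_apply, hD₂ v] at hz₂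
      rcases hbr v h1' with h | h | h
      · show (ramIdx x v : ℤ) ≤ tgNeg D₁ v
        rw [tg_ramIdx_of_neg v x h, Int.toNat_of_nonneg (by omega), tgNeg_apply, hD₁ v,
          tg_ord_sub_const_of_neg v x _ h]
        exact le_max_left _ _
      · exfalso
        rw [max_eq_left h.le] at hz₁
        omega
      · exfalso
        rw [max_eq_left h.le] at hz₂
        omega
    · rw [← hNw]
      exact tg_sum_le_mapDomain r _ (tgNeg_nonneg D₁) w s hs
  · -- `w` is not a pole of `x̄`
    obtain ⟨cbar, hcb | hcb⟩ := Fermat.Agent.H23.exists_const_ord_sub_pos w (T.deg₂ w)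
      (Or.inr hw)
    · exact absurd (hcb ▸ isAlgebraic_algebraMap cbar) T.hxbar
    -- choice of the lift of the value
    obtain ⟨c, hcπ, hc1, hc2⟩ : ∃ c : A, π c = cbar ∧ (cbar = π c₁ → c = c₁) ∧
        (cbar = π c₂ → c = c₂) := by
      by_cases h1 : cbar = π c₁
      · exact ⟨c₁, h1.symm, fun _ => rfl, fun h2 => absurd (h1.symm.trans h2) hc⟩
      · by_cases h2 : cbar = π c₂
        · exact ⟨c₂, h2.symm, fun h => absurd h h1, fun _ => rfl⟩
        · obtain ⟨c, hc'⟩ := T.surj cbar
          exact ⟨c, hc', fun h => absurd h h1, fun h => absurd h h2⟩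
    obtain ⟨D, hD⟩ := T.div_exists c
    obtain ⟨hN, hdiff, -⟩ := T.noCancel c D hD
    have hNw : ∀ (E : Divisor L F₁), (∀ w, Finsupp.mapDomain r (tgNeg E) w =
        max (w.ord xbar⁻¹) 0) → Finsupp.mapDomain r (tgNeg E) w = 0 := by
      intro E hE
      rw [hE w, w.ord_inv, max_eq_right (by omega)]
    have hT : (ramIdx xbar w : ℤ) = w.ord (xbar - algebraMap k F₂ cbar) := by
      rw [tg_ramIdx_of_sub_pos w xbar hcb, Int.toNat_of_nonneg hcb.le]
    have hPw : Finsupp.mapDomain r (tgPos D) w = w.ord (xbar - algebraMap k F₂ cbar) := by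
      have := hdiff w
      rw [hNw D hN, hcπ] at this
      omega
    rw [hT]
    refine tg_comb s (fun v => (ramIdx x v : ℤ)) (fun v => tgPos D v) _
      (fun v _ => tgPos_nonneg D v) ?_ ?_ (by omega)
    · intro v hv h1
      have h1' : 1 < ramIdx x v := by exact_mod_cast h1
      have hnp : 0 ≤ v.ord x := by
        by_contra h'
        have hz : tgNeg D v = 0 :=
          tg_eq_zero_of_mapDomain_eq_zero r _ (tgNeg_nonneg D) w (hNw D hN) v (hs v hv)
        rw [tgNeg_apply, hD v, tg_ord_sub_const_of_neg v x _ (not_le.mp h')] at hz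
        rw [max_eq_left (by omega)] at hz
        omega
      -- the value of `x` at `v` is the chosen lift
      have key : ∀ (c' : A) (D' : Divisor L F₁),
          (∀ P, D' P = P.ord (x - algebraMap L F₁ (c' : L))) →
          0 < v.ord (x - algebraMap L F₁ (c' : L)) → cbar = π c' := by
        intro c' D' hD' hpos
        obtain ⟨hN', hdiff', -⟩ := T.noCancel c' D' hD'
        have h2 := hdiff' w
        rw [hNw D' hN'] at h2
        have h3 : tgPos D' v ≤ Finsupp.mapDomain r (tgPos D') w := by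
          have := tg_sum_le_mapDomain r _ (tgPos_nonneg D') w {v} (by simpa using hs v hv)
          rwa [Finset.sum_singleton] at this
        rw [tgPos_apply, hD' v, max_eq_left hpos.le] at h3
        exact tg_value_unique w xbar hcb (by omega)
      have hval : 0 < v.ord (x - algebraMap L F₁ (c : L)) := by
        rcases hbr v h1' with h | h | h
        · omega
        · rw [hc1 (key c₁ D₁ hD₁ h)]
          exact h
        · rw [hc2 (key c₂ D₂ hD₂ h)]
          exact h
      show (ramIdx x v : ℤ) ≤ tgPos D v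
      rw [tg_ramIdx_of_sub_pos v x hval, Int.toNat_of_nonneg hval.le, tgPos_apply, hD v]
      exact le_max_left _ _
    · rw [← hPw]
      exact tg_sum_le_mapDomain r _ (tgPos_nonneg D) w s hs

end datum

end Fermat.Agent.H7.ESD

end
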