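/-
P-ES / ES-D-TG (helper7), part 2: the genus inequality `g(F_L) ≤ g(F_k)` from the reduction
inputs `h`, a Riemann package for `F_k`, the Hurwitz statement and a *tame branch datum*:
an integral function `x` (Laurent series over `A`) whose branch values `c₁, c₂, ∞` have pairwise
distinct residues and whose degree does not drop under reduction.
-/
import Fermat.Agent.H7.ESD.FibreIneq
import Fermat.Agent.H27.ESD.Interfaces2
import Fermat.Agent.H47.ESD.Pinch
import Fermat.Agent.H16.FFBasic
import Fermat.Agent.H58.RR.Modular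
import Fermat.Agent.H89.ESDA3AlgClosed
import Fermat.Agent.H18.RedSemi

set_option autoImplicit false
set_option synthInstance.maxHeartbeats 400000
set_option maxHeartbeats 1600000
set_option linter.unusedSectionVars false
set_option linter.style.haveILetI false

noncomputable section

open AlgebraicCurve ModularCurve IntermediateField

namespace Fermat.Agent.H7.ESD

open Fermat.Agent.H27.ESD

section poles

variable {K F : Type*} [Field K] [Field F] [Algebra K F]

/-- the number of poles of a separating element, counted with multiplicity, is the degree -/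
theorem tg_poles [IsAlgClosed K] (x : F) (hx : Transcendental K x)
    [FiniteDimensional K⟮x⟯ F] [Algebra.IsSeparable K⟮x⟯ F] :
    {v : Place K F | 0 < v.ord x⁻¹}.Finite ∧
      ∑ᶠ v ∈ {v : Place K F | 0 < v.ord x⁻¹}, v.ord x⁻¹ = (Module.finrank K⟮x⟯ F : ℤ) := by
  have hft' : Transcendental K x⁻¹ := by
    intro h
    apply hx
    have := h.inv
    rwa [inv_inv] at this
  have hinv : K⟮x⁻¹⟯ = K⟮x⟯ := Fermat.Agent.H16.ffb_adjoin_simple_inv x
  have h1 : ∀ (E : IntermediateField K F), E = K⟮x⟯ → K⟮x⁻¹⟯ = E →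
      {v : Place K F | 0 < v.ord x⁻¹}.Finite ∧
      ∑ᶠ v ∈ {v : Place K F | 0 < v.ord x⁻¹}, v.ord x⁻¹ = (Module.finrank E F : ℤ) := by
    intro E hE hE'
    subst hE'
    have : FiniteDimensional K⟮x⁻¹⟯ F := hE ▸ (inferInstance : FiniteDimensional K⟮x⟯ F)
    have : Algebra.IsSeparable K⟮x⁻¹⟯ F := hE ▸ (inferInstance : Algebra.IsSeparable K⟮x⟯ F)
    exact Fermat.Agent.H16.ffb_fundamentalIdentity_zeros x⁻¹ hft'
  exact h1 K⟮x⟯ rfl hinv

end poles

section glue

variable (N : ℕ) [NeZero N] (A : ValuationSubring (AlgebraicClosure ℚ))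

/-- **Tame branch datum** at `(N, A)`: an integral Laurent series `X` representing a function
`x ∈ F_L` with reduction `x̄ ∈ F_k`, both separating of finite degree, the degree of `x̄` being
at least the degree of `x`, and two constants `c₁, c₂ ∈ A` with distinct residues such that `x`
is unramified outside `x = c₁, c₂, ∞`. -/
def TameBranchData : Prop :=
  ∃ (X : LaurentSeries A)
    (hX : coeffMap A.subtype X ∈ modularFunctionFieldBar N)
    (hXk : coeffMap (IsLocalRing.residue A) X ∈
      modularFunctionFieldFullC (IsLocalRing.ResidueField A) N)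
    (c₁ c₂ : A),
    IsLocalRing.residue A c₁ ≠ IsLocalRing.residue A c₂ ∧
    Transcendental (AlgebraicClosure ℚ) (⟨_, hX⟩ : ↥(modularFunctionFieldBar N)) ∧
    FiniteDimensional
      (adjoin (AlgebraicClosure ℚ) {(⟨_, hX⟩ : ↥(modularFunctionFieldBar N))})
      ↥(modularFunctionFieldBar N) ∧
    Transcendental (IsLocalRing.ResidueField A)
      (⟨_, hXk⟩ : ↥(modularFunctionFieldFullC (IsLocalRing.ResidueField A) N)) ∧
    FiniteDimensional
      (adjoin (IsLocalRing.ResidueField A)
        {(⟨_, hXk⟩ : ↥(modularFunctionFieldFullC (IsLocalRing.ResidueField A) N))})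
      ↥(modularFunctionFieldFullC (IsLocalRing.ResidueField A) N) ∧
    Algebra.IsSeparable
      (adjoin (IsLocalRing.ResidueField A)
        {(⟨_, hXk⟩ : ↥(modularFunctionFieldFullC (IsLocalRing.ResidueField A) N))})
      ↥(modularFunctionFieldFullC (IsLocalRing.ResidueField A) N) ∧
    Module.finrank
        (adjoin (AlgebraicClosure ℚ) {(⟨_, hX⟩ : ↥(modularFunctionFieldBar N))})
        ↥(modularFunctionFieldBar N) ≤
      Module.finrank
        (adjoin (IsLocalRing.ResidueField A)
          {(⟨_, hXk⟩ : ↥(modularFunctionFieldFullC (IsLocalRing.ResidueField A) N))})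
        ↥(modularFunctionFieldFullC (IsLocalRing.ResidueField A) N) ∧
    ∀ v : Place (AlgebraicClosure ℚ) ↥(modularFunctionFieldBar N),
      1 < ramIdx (⟨_, hX⟩ : ↥(modularFunctionFieldBar N)) v →
        v.ord (⟨_, hX⟩ : ↥(modularFunctionFieldBar N)) < 0 ∨
        0 < v.ord ((⟨_, hX⟩ : ↥(modularFunctionFieldBar N)) -
          algebraMap (AlgebraicClosure ℚ) ↥(modularFunctionFieldBar N) (c₁ : AlgebraicClosure ℚ)) ∨
        0 < v.ord ((⟨_, hX⟩ : ↥(modularFunctionFieldBar N)) -
          algebraMap (AlgebraicClosure ℚ) ↥(modularFunctionFieldBar N) (c₂ : AlgebraicClosure ℚ))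

variable {N A}

/-- the element `x - c` of `F_L` as an integral Laurent series -/
theorem tg_sub_const_L (X : LaurentSeries A)
    (hX : coeffMap A.subtype X ∈ modularFunctionFieldBar N) (c : A) :
    ∃ hy : coeffMap A.subtype (X - HahnSeries.C c) ∈ modularFunctionFieldBar N,
      (⟨_, hy⟩ : ↥(modularFunctionFieldBar N)) =
        (⟨_, hX⟩ : ↥(modularFunctionFieldBar N)) -
          algebraMap (AlgebraicClosure ℚ) ↥(modularFunctionFieldBar N) (c : AlgebraicClosure ℚ) := by
  have e : coeffMap A.subtype (X - HahnSeries.C c) =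
      coeffMap A.subtype X - algebraMap (AlgebraicClosure ℚ)
        (LaurentSeries (AlgebraicClosure ℚ)) (c : AlgebraicClosure ℚ) := by
    rw [map_sub, Fermat.Agent.H18.rv_coeffMap_C, Fermat.Agent.H18.rv_algebraMap_eq_C]
    rfl
  have hy : coeffMap A.subtype (X - HahnSeries.C c) ∈ modularFunctionFieldBar N := by
    rw [e]
    exact sub_mem hX ((modularFunctionFieldBar N).algebraMap_mem _)
  exact ⟨hy, Subtype.ext e⟩

/-- the element `x̄ - c̄` of `F_k` as the reduction of an integral Laurent series -/
theorem tg_sub_const_k (X : LaurentSeries A)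
    (hXk : coeffMap (IsLocalRing.residue A) X ∈
      modularFunctionFieldFullC (IsLocalRing.ResidueField A) N) (c : A) :
    ∃ hy : coeffMap (IsLocalRing.residue A) (X - HahnSeries.C c) ∈
        modularFunctionFieldFullC (IsLocalRing.ResidueField A) N,
      (⟨_, hy⟩ : ↥(modularFunctionFieldFullC (IsLocalRing.ResidueField A) N)) =
        (⟨_, hXk⟩ : ↥(modularFunctionFieldFullC (IsLocalRing.ResidueField A) N)) -
          algebraMap (IsLocalRing.ResidueField A)
            ↥(modularFunctionFieldFullC (IsLocalRing.ResidueField A) N)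
            (IsLocalRing.residue A c) := by
  have e : coeffMap (IsLocalRing.residue A) (X - HahnSeries.C c) =
      coeffMap (IsLocalRing.residue A) X - algebraMap (IsLocalRing.ResidueField A)
        (LaurentSeries (IsLocalRing.ResidueField A)) (IsLocalRing.residue A c) := by
    rw [map_sub, Fermat.Agent.H18.rv_coeffMap_C, Fermat.Agent.H18.rv_algebraMap_eq_C]
  have hy : coeffMap (IsLocalRing.residue A) (X - HahnSeries.C c) ∈
      modularFunctionFieldFullC (IsLocalRing.ResidueField A) N := by
    rw [e]
    exact sub_mem hXk ((modularFunctionFieldFullC (IsLocalRing.ResidueField A) N).algebraMap_mem _)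
  exact ⟨hy, Subtype.ext e⟩

theorem tg_sub_const_ne_zero {K F : Type*} [Field K] [Field F] [Algebra K F] {x : F}
    (hx : Transcendental K x) (c : K) : x - algebraMap K F c ≠ 0 := by
  intro h
  apply hx
  rw [sub_eq_zero.mp h]
  exact isAlgebraic_algebraMap c

/-- **The genus inequality from a tame branch datum.** -/
theorem genusFF_le_of_tameBranchData (hH : HurwitzStatement)
    (h : ModularCurve.ReductionInputsModL A N)
    (hrr : Fermat.Agent.H58.RRHyp (IsLocalRing.ResidueField A)
      ↥(modularFunctionFieldFullC (IsLocalRing.ResidueField A) N))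
    (hB : TameBranchData N A) :
    genusFF (AlgebraicClosure ℚ) ↥(modularFunctionFieldBar N) ≤
      genusFF (IsLocalRing.ResidueField A)
        ↥(modularFunctionFieldFullC (IsLocalRing.ResidueField A) N) := by
  obtain ⟨X, hX, hXk, c₁, c₂, hc, hxtr, hxfin, hxbtr, hxbfin, hxbsep, hfr, hbr⟩ := hB
  haveI hac : IsAlgClosed (IsLocalRing.ResidueField A) :=
    Fermat.Agent.H89.isAlgClosed_residueField A
  haveI : Infinite (IsLocalRing.ResidueField A) := IsAlgClosed.instInfinite
  have hrrL := Fermat.Agent.H58.rrHyp_modularFunctionFieldBar N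
  have hRL := riemannPackage_of_rrHyp hrrL
  have hRk := riemannPackage_of_rrHyp hrr
  have hr := isPlaceReductionModL_placeReductionModL h
  haveI := hxfin
  haveI := hxbfin
  haveI := hxbsep
  haveI : CharZero ↥(adjoin (AlgebraicClosure ℚ)
      {(⟨_, hX⟩ : ↥(modularFunctionFieldBar N))}) :=
    charZero_of_injective_algebraMap (algebraMap (AlgebraicClosure ℚ) _).injective
  have hsepL : Algebra.IsSeparable ↥(adjoin (AlgebraicClosure ℚ)
      {(⟨_, hX⟩ : ↥(modularFunctionFieldBar N))}) ↥(modularFunctionFieldBar N) := inferInstance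
  obtain ⟨hfinL, hsumL⟩ := tg_poles (⟨_, hX⟩ : ↥(modularFunctionFieldBar N)) hxtr
  obtain ⟨hfink, hsumk⟩ := tg_poles
    (⟨_, hXk⟩ : ↥(modularFunctionFieldFullC (IsLocalRing.ResidueField A) N)) hxbtr
  have T : TgDatum A (IsLocalRing.residue A) (placeReductionModL h)
      (⟨_, hX⟩ : ↥(modularFunctionFieldBar N))
      (⟨_, hXk⟩ : ↥(modularFunctionFieldFullC (IsLocalRing.ResidueField A) N))
      (Module.finrank (adjoin (AlgebraicClosure ℚ)
        {(⟨_, hX⟩ : ↥(modularFunctionFieldBar N))}) ↥(modularFunctionFieldBar N) : ℤ) := by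
    refine ⟨hrr.deg_one, IsLocalRing.residue_surjective, hxbtr, fun c => ?_,
      fun c D hD Q => ?_, hsumL.le, hfink, ?_⟩
    · obtain ⟨D, hD, -⟩ := hrrL.principal.exists_divisor _ (tg_sub_const_ne_zero hxtr (c : _))
      exact ⟨D, hD⟩
    · obtain ⟨hy, e1⟩ := tg_sub_const_L X hX c
      obtain ⟨hyk, e2⟩ := tg_sub_const_k X hXk c
      have hne : coeffMap (IsLocalRing.residue A) (X - HahnSeries.C c) ≠ 0 := by
        intro h0
        have h1 : (⟨_, hyk⟩ : ↥(modularFunctionFieldFullC (IsLocalRing.ResidueField A) N)) = 0 :=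
          Subtype.ext h0
        rw [e2] at h1
        exact tg_sub_const_ne_zero hxbtr _ h1
      have key := hr.2 (X - HahnSeries.C c) hy hyk hne D (by
        intro P
        rw [hD P]
        exact congrArg P.ord e1.symm) Q
      rw [key]
      exact congrArg Q.ord e2
    · rw [hsumk]
      exact_mod_cast hfr
  have hfr' : Module.finrank (adjoin (AlgebraicClosure ℚ)
        {(⟨_, hX⟩ : ↥(modularFunctionFieldBar N))}) ↥(modularFunctionFieldBar N) =
      Module.finrank (adjoin (IsLocalRing.ResidueField A)
          {(⟨_, hXk⟩ : ↥(modularFunctionFieldFullC (IsLocalRing.ResidueField A) N))})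
        ↥(modularFunctionFieldFullC (IsLocalRing.ResidueField A) N) := by
    have := T.poles_eq c₁
    rw [hsumk, hsumL] at this
    exact_mod_cast this.symm
  refine Fermat.Agent.H47.pinchStatement hH (AlgebraicClosure ℚ) ↥(modularFunctionFieldBar N)
    (IsLocalRing.ResidueField A) ↥(modularFunctionFieldFullC (IsLocalRing.ResidueField A) N)
    _ _ hRL hRk (placeReductionModL h) _ _ hxtr hxbtr hxfin hxbfin hsepL hxbsep hfr'
    (fun v => ?_) (T.fibre c₁ c₂ hc hbr)
  have h1 := tg_one_le_ramIdx v (hrrL.deg_one v) _ hxtr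
  have h2 : ramIdx (⟨_, hX⟩ : ↥(modularFunctionFieldBar N)) v ≠ 0 := by omega
  exact_mod_cast h2

end glue

end Fermat.Agent.H7.ESD

end
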