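/-
P-ES / ES-D-TG (helper7), part 3: the tame branch datum of `x = j` for `ℓ ≥ 5`.
-/
import Fermat.Agent.H7.ESD.TameGlue
import Fermat.Agent.H17.ESD.BranchJ
import Fermat.Agent.H89.ESDA3
import Fermat.Agent.H18.RedArch
import Fermat.Agent.H27.Igusa.Assembly2

set_option autoImplicit false
set_option synthInstance.maxHeartbeats 400000
set_option maxHeartbeats 1600000
set_option linter.unusedSectionVars false
set_option linter.style.haveILetI false

noncomputable section

open AlgebraicCurve ModularCurve IntermediateField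

namespace Fermat.Agent.H7.ESD

open Fermat.Agent.H27.ESD Fermat.Agent.H27

section kside

variable (k : Type) [Field k] [IsAlgClosed k] (N : ℕ) [NeZero N] (ℓ : ℕ) [Fact ℓ.Prime]
  [CharP k ℓ]

/-- explicit form of `Fermat.Agent.H89.ffModL_core` (same proof): `x̄ = j̄` is a separating
element of finite degree of `F_k`. -/
theorem tg_ffModL_explicit (hℓN : ¬ ℓ ∣ N) (hM : HasHeckeData k) :
    Transcendental k (⟨jqModC k, jqModC_mem_full k N⟩ : ↥(modularFunctionFieldFullC k N)) ∧
    FiniteDimensional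
      (adjoin k {(⟨jqModC k, jqModC_mem_full k N⟩ : ↥(modularFunctionFieldFullC k N))})
      ↥(modularFunctionFieldFullC k N) ∧
    Algebra.IsSeparable
      (adjoin k {(⟨jqModC k, jqModC_mem_full k N⟩ : ↥(modularFunctionFieldFullC k N))})
      ↥(modularFunctionFieldFullC k N) := by
  have hℓ : ℓ.Prime := Fact.out
  have hN : (N : k) ≠ 0 := by
    intro h
    exact hℓN ((CharP.cast_eq_zero_iff k ℓ N).mp h)
  have hfin := Fermat.Agent.H89.finiteDimensional_fullC k N hM hN
  refine ⟨?_, hfin, ?_⟩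
  · intro halg
    have h2 : IsAlgebraic k (algebraMap ↥(modularFunctionFieldFullC k N) (LaurentSeries k)
        ⟨jqModC k, jqModC_mem_full k N⟩) := halg.algebraMap
    exact P2MW.S_ModularCurve_coeff_jqModC_neg_one.ModularCurve.CharLRows.transcendental_jqModC k
      h2
  · set F := modularFunctionFieldFullC k N with hF
    set x : ↥F := ⟨jqModC k, jqModC_mem_full k N⟩ with hx
    set K₁ := IntermediateField.adjoin k {x} with hK₁
    have hxK : x ∈ K₁ := IntermediateField.mem_adjoin_simple_self k x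
    have hkperf : ∀ a : k, ∃ b : k, b ^ ℓ = a := fun a =>
      IsAlgClosed.exists_pow_nat_eq a hℓ.pos
    haveI : CharP ↥F ℓ := charP_of_injective_algebraMap (algebraMap k ↥F).injective ℓ
    haveI : CharP ↥K₁ ℓ := charP_of_injective_algebraMap (algebraMap k ↥K₁).injective ℓ
    haveI : Algebra.IsIntegral ↥K₁ ↥F := Algebra.IsIntegral.of_finite ↥K₁ ↥F
    refine ⟨fun y => Fermat.Agent.H89.isSeparable_of_pIndep ℓ (⟨x, hxK⟩ : ↥K₁) ?_ ?_ y
      (Algebra.IsIntegral.isIntegral y)⟩
    · intro a
      obtain ⟨b, hb, hab⟩ := Fermat.Agent.H89.exists_pDecomp_of_mem_adjoin ℓ x hkperf a.2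
      refine ⟨fun r => ⟨b r, hb r⟩, ?_⟩
      apply Subtype.ext
      rw [hab]
      push_cast
      rfl
    · intro c hc
      have h1 : ∑ r ∈ Finset.range ℓ, (jqModC k) ^ r * ((c r : ↥F) : LaurentSeries k) ^ ℓ = 0 := by
        have h2 := congrArg (algebraMap ↥F (LaurentSeries k)) hc
        rw [map_sum, map_zero] at h2
        rw [← h2]
        refine Finset.sum_congr rfl fun r _ => ?_
        rw [map_mul, map_pow, map_pow]
        rfl
      have h3 := Fermat.Agent.H89.laurent_pIndep ℓ (jqModC k)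
        (P2MW.S_ModularCurve_coeff_jqModC_neg_one.ModularCurve.CharLRows.order_jqModC k)
        (fun r => ((c r : ↥F) : LaurentSeries k)) h1
      intro r hr
      exact Subtype.ext (h3 r hr)

/-- P-IGUSA degree inequality in `finrank` form -/
theorem tg_dedekindPsi_le_finrank (hℓN : ¬ ℓ ∣ N) (hM : HasHeckeData k) :
    dedekindPsi N ≤ Module.finrank
      (adjoin k {(⟨jqModC k, jqModC_mem_full k N⟩ : ↥(modularFunctionFieldFullC k N))})
      ↥(modularFunctionFieldFullC k N) := by
  have hN : (N : k) ≠ 0 := by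
    intro h
    exact hℓN ((CharP.cast_eq_zero_iff k ℓ N).mp h)
  have h1 := dedekindPsi_le_relrank_geom_of k hM (unitNormStatement_of_hasHeckeData k hM) N hN
  obtain ⟨-, hfin, -⟩ := tg_ffModL_explicit k N ℓ hℓN hM
  haveI := hfin
  set F := modularFunctionFieldFullC k N with hF
  set x : ↥F := ⟨jqModC k, jqModC_mem_full k N⟩ with hx
  have e1 : (adjoin k {x}).map F.val = adjoin k {jqModC k} := by
    rw [IntermediateField.adjoin_map, Set.image_singleton]
    rfl
  have e2 : (⊤ : IntermediateField k ↥F).map F.val = F := by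
    rw [← AlgHom.fieldRange_eq_map, IntermediateField.fieldRange_val]
  have h2 : relrank (adjoin k {jqModC k}) F = Module.rank ↥(adjoin k {x}) ↥F := by
    rw [← relrank_top_right (A := adjoin k {x}), ← relrank_map_map (adjoin k {x}) ⊤ F.val,
      e1, e2]
  rw [h2, ← Module.finrank_eq_rank] at h1
  exact_mod_cast h1

end kside

section datum

variable (N : ℕ) [NeZero N] (ℓ : ℕ) [Fact ℓ.Prime]
  (A : ValuationSubring (AlgebraicClosure ℚ))

theorem tg_finrank_jBar :
    Module.finrank (adjoin (AlgebraicClosure ℚ) {Fermat.Agent.H23.jBar N})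
      ↥(modularFunctionFieldBar N) = dedekindPsi N := by
  rw [Fermat.Agent.H17.ESD.finrank_eq_card N]
  exact (Fermat.Agent.H85.cosetCombinatorics N).1

/-- **The tame branch datum of `j`** for `ℓ ≥ 5`. -/
theorem tameBranchData_j (hℓN : ¬ ℓ ∣ N) (h5 : 5 ≤ ℓ) (hA : A.LiesOverPrime ℓ) :
    TameBranchData N A := by
  have hℓ : ℓ.Prime := Fact.out
  haveI : IsAlgClosed (IsLocalRing.ResidueField A) :=
    Fermat.Agent.H89.isAlgClosed_residueField A
  haveI : CharP (IsLocalRing.ResidueField A) ℓ :=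
    Fermat.Agent.H89.charP_residueField_of_liesOverPrime A ℓ hA
  have hM : HasHeckeData (IsLocalRing.ResidueField A) :=
    Fermat.Agent.H67.hasHeckeData_of_complex Fermat.Agent.H17.hasHeckeData_complex _
  have e1 : coeffMap A.subtype (jqModC A) = coeffEmb (AlgebraicClosure ℚ) jq := by
    rw [coeffMap_jqModC, coeffEmb, ← jqModC_rat, coeffMap_jqModC]
  have hX : coeffMap A.subtype (jqModC A) ∈ modularFunctionFieldBar N := by
    rw [e1]
    exact (Fermat.Agent.H23.jBar N).2
  have ex : (⟨_, hX⟩ : ↥(modularFunctionFieldBar N)) = Fermat.Agent.H23.jBar N :=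
    Subtype.ext e1
  have e2 : coeffMap (IsLocalRing.residue A) (jqModC A) =
      jqModC (IsLocalRing.ResidueField A) := coeffMap_jqModC _
  have hXk : coeffMap (IsLocalRing.residue A) (jqModC A) ∈
      modularFunctionFieldFullC (IsLocalRing.ResidueField A) N := by
    rw [e2]
    exact jqModC_mem_full _ N
  have exk : (⟨_, hXk⟩ : ↥(modularFunctionFieldFullC (IsLocalRing.ResidueField A) N)) =
      ⟨jqModC (IsLocalRing.ResidueField A), jqModC_mem_full _ N⟩ := Subtype.ext e2
  obtain ⟨htr, hfin, hsep⟩ := tg_ffModL_explicit (IsLocalRing.ResidueField A) N ℓ hℓN hM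
  have hdeg := tg_dedekindPsi_le_finrank (IsLocalRing.ResidueField A) N ℓ hℓN hM
  have hDS := Fermat.Agent.H23.degreeStatement_holds N
  -- the residues of the branch values
  have h1728 : IsUnit ((1728 : ℤ) : A) := by
    refine Fermat.Agent.H18.rv_isUnit_intCast A hℓ hA ?_
    intro hdvd
    have h2 : (ℓ : ℤ) ∣ 2 ^ 6 * 3 ^ 3 := by
      have : (1728 : ℤ) = 2 ^ 6 * 3 ^ 3 := by norm_num
      rwa [this] at hdvd
    have hp : Prime (ℓ : ℤ) := Nat.prime_iff_prime_int.mp hℓ
    rcases hp.dvd_or_dvd h2 with h3 | h3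
    · have h4 := hp.dvd_of_dvd_pow h3
      have h5' : (ℓ : ℤ) ≤ 2 := Int.le_of_dvd (by norm_num) h4
      omega
    · have h4 := hp.dvd_of_dvd_pow h3
      have h5' : (ℓ : ℤ) ≤ 3 := Int.le_of_dvd (by norm_num) h4
      omega
  have hres : IsLocalRing.residue A (0 : A) ≠ IsLocalRing.residue A ((1728 : ℤ) : A) := by
    rw [map_zero]
    intro h0
    have h3 := (IsLocalRing.residue_eq_zero_iff _).mp h0.symm
    exact (IsLocalRing.mem_maximalIdeal _).mp h3 h1728
  refine ⟨jqModC A, hX, hXk, 0, ((1728 : ℤ) : A), hres, ?_, ?_, ?_, ?_, ?_, ?_, ?_⟩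
  · rw [ex]
    exact hDS.1
  · rw [ex]
    exact hDS.2.1
  · rw [exk]
    exact htr
  · rw [exk]
    exact hfin
  · rw [exk]
    exact hsep
  · rw [ex, exk, tg_finrank_jBar]
    exact hdeg
  · intro v hv
    rw [ex] at hv ⊢
    obtain ⟨-, hb, -⟩ := Fermat.Agent.H17.ESD.branchJ N v
    rcases hb hv with h | h | h
    · exact Or.inl h
    · right
      left
      simpa using h
    · right
      right
      have e3 : (((1728 : ℤ) : A) : AlgebraicClosure ℚ) = 1728 := by
        push_cast
        rfl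
      rw [e3]
      exact h

end datum

end Fermat.Agent.H7.ESD

end
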