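/-
P-ES / ES-D-TG (helper7), part 4: `GenusFFTameStatement` from the Hurwitz statement and the
branch data at `ℓ = 2, 3` (`ℓ ≥ 5` is unconditional, with `x = j`).
-/
import Fermat.Agent.H7.ESD.TameJ

set_option autoImplicit false
set_option synthInstance.maxHeartbeats 400000
set_option linter.unusedSectionVars false

noncomputable section

open AlgebraicCurve ModularCurve IntermediateField

namespace Fermat.Agent.H7.ESD

open Fermat.Agent.H27.ESD

/-- **Branch data at `ℓ = 2, 3`** (ES-D-BR, parts BR-2 and BR-3): a tame branch datum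
(`x = t₂ = Δ(z)/Δ(2z)` when `ℓ = 3`, `2 ∣ N`; `x = t₃ = (η(z)/η(3z))¹²` when `ℓ = 2`, `3 ∣ N`).
The reduction inputs and the Riemann package of `F_k` are allowed as hypotheses. -/
def TameBranch23Statement : Prop :=
  ∀ (N : ℕ) [NeZero N] (ℓ : ℕ) [Fact ℓ.Prime], ¬ ℓ ∣ N →
    ((ℓ = 3 ∧ 2 ∣ N) ∨ (ℓ = 2 ∧ 3 ∣ N)) →
    ∀ (A : ValuationSubring (AlgebraicClosure ℚ)), A.LiesOverPrime ℓ →
      ModularCurve.ReductionInputsModL A N →
      Fermat.Agent.H58.RRHyp (IsLocalRing.ResidueField A)
        ↥(modularFunctionFieldFullC (IsLocalRing.ResidueField A) N) →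
      TameBranchData N A

/-- **ES-D-TG for `ℓ ≥ 5`**: the genus inequality, from the Hurwitz statement only. -/
theorem genusFF_le_of_five_le (hH : HurwitzStatement)
    (N : ℕ) [NeZero N] (ℓ : ℕ) [Fact ℓ.Prime] (hℓN : ¬ ℓ ∣ N) (h5 : 5 ≤ ℓ)
    (A : ValuationSubring (AlgebraicClosure ℚ)) (hA : A.LiesOverPrime ℓ)
    (h : ModularCurve.ReductionInputsModL A N)
    (hrr : Fermat.Agent.H58.RRHyp (IsLocalRing.ResidueField A)
      ↥(modularFunctionFieldFullC (IsLocalRing.ResidueField A) N)) :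
    genusFF (AlgebraicClosure ℚ) ↥(modularFunctionFieldBar N) ≤
      genusFF (IsLocalRing.ResidueField A)
        ↥(modularFunctionFieldFullC (IsLocalRing.ResidueField A) N) :=
  genusFF_le_of_tameBranchData hH h hrr (tameBranchData_j N ℓ A hℓN h5 hA)

/-- **ES-D-TG**: the genus inequality at tame pairs, from the Hurwitz statement and the branch
data at `ℓ = 2, 3`. -/
theorem genusFFTame_of (hH : HurwitzStatement) (hB : TameBranch23Statement) :
    GenusFFTameStatement := by
  intro N _ ℓ _ hℓN ht A hA h hrr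
  rcases ht with h5 | h23
  · exact genusFF_le_of_five_le hH N ℓ hℓN h5 A hA h hrr
  · exact genusFF_le_of_tameBranchData hH h hrr (hB N ℓ hℓN h23 A hA h hrr)

end Fermat.Agent.H7.ESD

end
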