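/-
P-ES / ES-D-TG (helper7), part 5: the Hurwitz statement is landed
(`Fermat.Agent.H19.hurwitzStatement`), so the genus inequality at tame pairs is unconditional for
`ℓ ≥ 5` and depends only on the branch data BR-2 / BR-3 for `ℓ = 3, 2`.
-/
import Fermat.Agent.H7.ESD.TameFinal
import Fermat.Agent.H19.RH.HurwitzFinal

set_option autoImplicit false
set_option synthInstance.maxHeartbeats 400000

noncomputable section

open AlgebraicCurve ModularCurve IntermediateField

namespace Fermat.Agent.H7.ESD

open Fermat.Agent.H27.ESD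

/-- **ES-D-TG for `ℓ ≥ 5`, unconditional.** -/
theorem genusFF_le_five (N : ℕ) [NeZero N] (ℓ : ℕ) [Fact ℓ.Prime] (hℓN : ¬ ℓ ∣ N) (h5 : 5 ≤ ℓ)
    (A : ValuationSubring (AlgebraicClosure ℚ)) (hA : A.LiesOverPrime ℓ)
    (h : ModularCurve.ReductionInputsModL A N)
    (hrr : Fermat.Agent.H58.RRHyp (IsLocalRing.ResidueField A)
      ↥(modularFunctionFieldFullC (IsLocalRing.ResidueField A) N)) :
    genusFF (AlgebraicClosure ℚ) ↥(modularFunctionFieldBar N) ≤
      genusFF (IsLocalRing.ResidueField A)
        ↥(modularFunctionFieldFullC (IsLocalRing.ResidueField A) N) :=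
  genusFF_le_of_five_le Fermat.Agent.H19.hurwitzStatement N ℓ hℓN h5 A hA h hrr

/-- **ES-D-TG** from the branch data at `ℓ = 2, 3` only. -/
theorem genusFFTame_of_branch23 (hB : TameBranch23Statement) : GenusFFTameStatement :=
  genusFFTame_of Fermat.Agent.H19.hurwitzStatement hB

/-- the genus inequality from a tame branch datum, Hurwitz plugged in -/
theorem genusFF_le_of_branchData {N : ℕ} [NeZero N]
    {A : ValuationSubring (AlgebraicClosure ℚ)}
    (h : ModularCurve.ReductionInputsModL A N)
    (hrr : Fermat.Agent.H58.RRHyp (IsLocalRing.ResidueField A)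
      ↥(modularFunctionFieldFullC (IsLocalRing.ResidueField A) N))
    (hB : TameBranchData N A) :
    genusFF (AlgebraicClosure ℚ) ↥(modularFunctionFieldBar N) ≤
      genusFF (IsLocalRing.ResidueField A)
        ↥(modularFunctionFieldFullC (IsLocalRing.ResidueField A) N) :=
  genusFF_le_of_tameBranchData Fermat.Agent.H19.hurwitzStatement h hrr hB

end Fermat.Agent.H7.ESD

end
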